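/-
Project MW (S17), leaf [INC] (helper24), part 2: facts at a place `P` of `mw_F N`: finiteness of the
zero divisor of a section, the tangent quotients `(x_a/x_piv - x_a(P))/π`, the leading coefficient
`G_cc/ψ_piv/π^μ`, all in the valuation ring of `P`.  Prefix `mw_inc_`.
-/
import Fermat.Agent.MW.Core.Val
import Fermat.Agent.JT3.Riemann.FBar

set_option autoImplicit false
set_option linter.unusedSectionVars false

noncomputable section

namespace Fermat.Agent.MW

open AlgebraicCurve ModularCurve Fermat.Agent.S24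
open scoped Classical

variable {N : ℕ} [NeZero N]

/-! ### finiteness -/

theorem mw_inc_finite_ord {f : mw_F N} (hf : f ≠ 0) : {z : mw_X N | z.ord f ≠ 0}.Finite := by
  have := Fermat.Agent.JT3.rt_hasPrincipalDivisors_fbar N
  obtain ⟨D, hD, -⟩ := HasPrincipalDivisors.exists_divisor (K := mw_K) f hf
  refine D.support.finite_toSet.subset fun z hz => ?_
  simp only [Finset.mem_coe, Finsupp.mem_support_iff, hD z]
  exact hz

theorem mw_inc_ord_div (z : mw_X N) {f g : mw_F N} (hf : f ≠ 0) (hg : g ≠ 0) :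
    z.ord (f / g) = z.ord f - z.ord g := by
  rw [div_eq_mul_inv, Place.ord_mul z hf (inv_ne_zero hg), Place.ord_inv, sub_eq_add_neg]

theorem mw_inc_ord_pow (z : mw_X N) (f : mw_F N) (n : ℕ) : z.ord (f ^ n) = n * z.ord f := by
  have := Place.ord_zpow z f (n : ℤ)
  rwa [zpow_natCast] at this

variable {s : ℕ}

theorem mw_inc_finite_zeroMult {y : Fin (s + 1) → mw_F N} (hy : LinearIndependent mw_K y)
    {cc : Fin (s + 1) → mw_K} (hcc : cc ≠ 0) : {z : mw_X N | mw_zeroMult y cc z ≠ 0}.Finite := by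
  have hsec := mw_v_sec_ne_zero hy hcc
  have hfin : ({z : mw_X N | z.ord (mw_sec y cc) ≠ 0} ∪
      ⋃ b : Fin (s + 1), {z : mw_X N | z.ord (y b) ≠ 0}).Finite :=
    (mw_inc_finite_ord hsec).union (Set.finite_iUnion fun b => mw_inc_finite_ord (hy.ne_zero b))
  refine hfin.subset fun z hz => ?_
  by_contra hnot
  apply hz
  simp only [Set.mem_union, Set.mem_ofPred_eq, Set.mem_iUnion, not_or, not_exists, not_not] at hnot
  rw [mw_zeroMult, mw_inc_ord_div z hsec (hy.ne_zero _), hnot.1, hnot.2, sub_zero]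

/-! ### the valuation ring as a `Q̄`-algebra -/

/-- the inclusion `O_P → F` -/
def mw_inc_iota (P : mw_X N) : ↥P.toValuationSubring →ₐ[mw_K] mw_F N :=
  { P.toValuationSubring.subtype with commutes' := fun _ => rfl }

/-- the evaluation `O_P → Q̄` -/
def mw_inc_eps (P : mw_X N) : ↥P.toValuationSubring →ₐ[mw_K] mw_K :=
  { mw_ev P with commutes' := fun c => mw_v_const P c }

theorem mw_inc_iota_apply (P : mw_X N) (f : ↥P.toValuationSubring) :
    mw_inc_iota P f = (f : mw_F N) := rfl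

theorem mw_inc_eps_apply (P : mw_X N) (f : ↥P.toValuationSubring) :
    mw_inc_eps P f = mw_val P (f : mw_F N) := rfl

theorem mw_inc_iota_injective (P : mw_X N) : Function.Injective (mw_inc_iota P) :=
  fun _ _ h => Subtype.ext h

/-! ### uniformisers, tangent quotients, leading coefficients -/

theorem mw_inc_pi_ne_zero {P : mw_X N} {π : mw_F N} (hπ : P.ord π = 1) : π ≠ 0 := by
  rintro rfl
  rw [Place.ord_zero] at hπ
  exact zero_ne_one hπ

theorem mw_inc_pi_mem {P : mw_X N} {π : mw_F N} (hπ : P.ord π = 1) :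
    π ∈ P.toValuationSubring :=
  (mw_v_mem_iff P (mw_inc_pi_ne_zero hπ)).mpr (by rw [hπ]; exact zero_le_one)

/-- a function vanishing at `P` is divisible by a uniformiser in the valuation ring -/
theorem mw_inc_div_pi_mem {P : mw_X N} {π : mw_F N} (hπ : P.ord π = 1) {g : mw_F N}
    (hg : g ∈ P.toValuationSubring.nonunits) : g / π ∈ P.toValuationSubring := by
  by_cases hg0 : g = 0
  · rw [hg0, zero_div]; exact P.toValuationSubring.zero_mem
  · have hpos := (mw_v_mem_nonunits_iff P hg0).mp hg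
    rw [mw_v_mem_iff P (div_ne_zero hg0 (mw_inc_pi_ne_zero hπ)),
      mw_inc_ord_div P hg0 (mw_inc_pi_ne_zero hπ), hπ]
    omega

theorem mw_inc_tan_mem (x : Fin (s + 1) → mw_F N) (hx : ∃ b, x b ≠ 0) {P : mw_X N} {π : mw_F N}
    (hπ : P.ord π = 1) (a : Fin (s + 1)) :
    (x a / x (mw_piv x P) - algebraMap mw_K (mw_F N) (mw_vec x P a)) / π
      ∈ P.toValuationSubring :=
  mw_inc_div_pi_mem hπ (mw_v_spec P ((mw_v_piv_spec x hx P).2 a))

theorem mw_inc_lc_mem {y : Fin (s + 1) → mw_F N} (hy : LinearIndependent mw_K y)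
    {cc : Fin (s + 1) → mw_K} (hcc : cc ≠ 0) {P : mw_X N} {π : mw_F N} {μ : ℕ}
    (hμ : mw_zeroMult y cc P = (μ : ℤ)) (hπ : 1 ≤ μ → P.ord π = 1) :
    mw_sec y cc / y (mw_piv y P) / π ^ μ ∈ P.toValuationSubring := by
  have hsec := mw_v_sec_ne_zero hy hcc
  have hG : mw_sec y cc / y (mw_piv y P) ≠ 0 := div_ne_zero hsec (hy.ne_zero _)
  rcases Nat.eq_zero_or_pos μ with h0 | hpos
  · rw [h0, pow_zero, div_one]
    exact mw_v_sec_div_mem y (mw_v_exists_ne_zero hy) P cc
  · have hπ1 := hπ hpos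
    have hπ0 := mw_inc_pi_ne_zero hπ1
    rw [mw_v_mem_iff P (div_ne_zero hG (pow_ne_zero _ hπ0)),
      mw_inc_ord_div P hG (pow_ne_zero _ hπ0), mw_inc_ord_pow, hπ1]
    rw [mw_zeroMult] at hμ
    rw [hμ]
    omega

end Fermat.Agent.MW
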