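/-
Project MW (S17), leaf [INC] (helper24), part 1: polynomial algebra over a `Q̄`-algebra `B`
(`B = F`, the valuation ring `O_P`, `Q̄`): the general hyperplane through a `B`-point, the
resultant through it, the quotient `R″` at a `B`-point; naturality and scaling.  Prefix `mw_inc_`.
-/
import Fermat.Agent.MW.Core.Seams

set_option autoImplicit false
set_option linter.unusedSectionVars false

noncomputable section

namespace Fermat.Agent.MW

open MvPolynomial
open scoped Classical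

/-! ### scaling of a weighted homogeneous polynomial -/

/-- `p(t^{w_i} f_i) = t^n p(f_i)` for `p` weighted homogeneous of degree `n`. -/
theorem mw_inc_aeval_scale {ρ : Type} {B : Type} [CommRing B] [Algebra mw_K B]
    (p : MvPolynomial ρ mw_K) (w : ρ → ℕ) (n : ℕ) (hp : p.IsWeightedHomogeneous w n)
    (f : ρ → B) (t : B) :
    aeval (fun i => t ^ w i * f i) p = t ^ n * aeval f p := by
  conv_lhs => rw [p.as_sum]
  conv_rhs => rw [p.as_sum]
  simp only [map_sum, Finset.mul_sum]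
  refine Finset.sum_congr rfl fun m hm => ?_
  have hw : Finsupp.weight w m = n := hp (mem_support_iff.mp hm)
  rw [aeval_monomial, aeval_monomial]
  have : (m.prod fun i k => (t ^ w i * f i) ^ k) = t ^ n * m.prod fun i k => f i ^ k := by
    simp only [mul_pow, Finsupp.prod_mul]
    congr 1
    rw [← hw, Finsupp.weight_apply]
    simp only [Finsupp.prod, Finsupp.sum, ← pow_mul, smul_eq_mul]
    rw [Finset.prod_pow_eq_pow_sum]
    congr 1
    exact Finset.sum_congr rfl fun i _ => mul_comm _ _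
  rw [this]
  ring

/-! ### the general hyperplane through a `B`-point -/

section Through

variable {r s : ℕ} {B : Type} [CommRing B] [Algebra mw_K B]

/-- the general hyperplane through the point `v` over `B`, in the variables `U_{ab}` -/
def mw_inc_th (v : Fin (r + 1) → B) :
    Fin (r + 1) → MvPolynomial (Fin (r + 1) × Fin (r + 1)) B :=
  fun b => ∑ a, C (v a) * (X (a, b) - X (b, a))

/-- the linear form with coefficients in `B` -/
def mw_inc_lin (w : Fin (r + 1) × Fin (r + 1) → B) :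
    MvPolynomial (Fin (r + 1) × Fin (r + 1)) B := ∑ p, C (w p) * X p

/-- the Plücker vector over `B` -/
def mw_inc_wedge (u v : Fin (r + 1) → B) : Fin (r + 1) × Fin (r + 1) → B :=
  fun p => u p.1 * v p.2 - u p.2 * v p.1

theorem mw_inc_lin_K (w : Fin (r + 1) × Fin (r + 1) → mw_K) : mw_inc_lin w = mw_lin w := rfl

theorem mw_inc_wedge_K (u v : Fin (r + 1) → mw_K) : mw_inc_wedge u v = mw_wedge u v := rfl

/-- `∑_b c_b λ_v(U)_b = ⟨U, v ∧ c⟩` -/
theorem mw_inc_sum_th (v c : Fin (r + 1) → B) :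
    ∑ b, C (c b) * mw_inc_th v b = mw_inc_lin (mw_inc_wedge v c) := by
  have h1 : ∑ b, C (c b) * mw_inc_th v b
      = (∑ a, ∑ b, C (v a * c b) * X (a, b) : MvPolynomial (Fin (r + 1) × Fin (r + 1)) B)
        - ∑ a, ∑ b, C (v b * c a) * X (a, b) := by
    rw [Finset.sum_comm, ← Finset.sum_sub_distrib]
    refine Finset.sum_congr rfl fun b _ => ?_
    rw [mw_inc_th, Finset.mul_sum, ← Finset.sum_sub_distrib]
    refine Finset.sum_congr rfl fun a _ => ?_
    rw [map_mul]
    ring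
  have h2 : mw_inc_lin (mw_inc_wedge v c)
      = (∑ a, ∑ b, C (v a * c b) * X (a, b) : MvPolynomial (Fin (r + 1) × Fin (r + 1)) B)
        - ∑ a, ∑ b, C (v b * c a) * X (a, b) := by
    rw [mw_inc_lin, Fintype.sum_prod_type, ← Finset.sum_sub_distrib]
    refine Finset.sum_congr rfl fun a _ => ?_
    rw [← Finset.sum_sub_distrib]
    refine Finset.sum_congr rfl fun b _ => ?_
    rw [mw_inc_wedge, map_sub, sub_mul]
  rw [h1, h2]

theorem mw_inc_lin_smul (t : B) (w : Fin (r + 1) × Fin (r + 1) → B) :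
    mw_inc_lin (fun p => t * w p) = C t * mw_inc_lin w := by
  simp only [mw_inc_lin, map_mul, Finset.mul_sum, mul_assoc]

theorem mw_inc_th_smul (t : B) (v : Fin (r + 1) → B) (b : Fin (r + 1)) :
    mw_inc_th (fun a => t * v a) b = C t * mw_inc_th v b := by
  simp only [mw_inc_th, map_mul, Finset.mul_sum, mul_assoc]

/-- substitution of the general hyperplane through `v`: `Q̄[u] → B[U]` -/
def mw_inc_E (v : Fin (r + 1) → B) :
    MvPolynomial (Fin (r + 1)) mw_K →ₐ[mw_K] MvPolynomial (Fin (r + 1) × Fin (r + 1)) B :=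
  aeval (mw_inc_th v)

theorem mw_inc_E_lin (v : Fin (r + 1) → B) (c : Fin (r + 1) → mw_K) :
    mw_inc_E v (mw_lin c) = mw_inc_lin (mw_inc_wedge v fun b => algebraMap mw_K B (c b)) := by
  rw [← mw_inc_sum_th, mw_lin, map_sum]
  refine Finset.sum_congr rfl fun b _ => ?_
  rw [map_mul, mw_inc_E, aeval_X, aeval_C, MvPolynomial.algebraMap_apply]

/-- `R(cc, λ_v(U)) ∈ B[U]` -/
def mw_inc_rt (cc : Fin (s + 1) → mw_K) (v : Fin (r + 1) → B)
    (R : MvPolynomial (Fin (s + 1) ⊕ Fin (r + 1)) mw_K) :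
    MvPolynomial (Fin (r + 1) × Fin (r + 1)) B :=
  mw_inc_E v (mw_subL cc R)

theorem mw_inc_rt_eq (cc : Fin (s + 1) → mw_K) (v : Fin (r + 1) → B)
    (R : MvPolynomial (Fin (s + 1) ⊕ Fin (r + 1)) mw_K) :
    mw_inc_rt cc v R
      = aeval (Sum.elim (fun j => C (algebraMap mw_K B (cc j))) (mw_inc_th v)) R := by
  rw [mw_inc_rt, mw_subL, mw_inc_E, ← AlgHom.comp_apply, comp_aeval]
  congr 2
  funext i
  rcases i with j | b
  · simp [MvPolynomial.algebraMap_apply]
  · simp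

/-- `R″(cc, U, xv, yv) ∈ B[U]` -/
def mw_inc_qv (cc : Fin (s + 1) → mw_K) (xv : Fin (r + 1) → B) (yv : Fin (s + 1) → B) :
    MvPolynomial (mw_Var4 r s) mw_K →ₐ[mw_K] MvPolynomial (Fin (r + 1) × Fin (r + 1)) B :=
  aeval (Sum.elim (fun j => C (algebraMap mw_K B (cc j)))
    (Sum.elim (fun p => X p) (Sum.elim (fun b => C (xv b)) (fun j => C (yv j)))))

theorem mw_inc_qv_K (cc : Fin (s + 1) → mw_K) (xv : Fin (r + 1) → mw_K)
    (yv : Fin (s + 1) → mw_K) : mw_inc_qv cc xv yv = mw_quotVal cc xv yv := rfl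

/-! ### naturality -/

variable {B' : Type} [CommRing B'] [Algebra mw_K B']

theorem mw_inc_map_lin (φ : B →ₐ[mw_K] B') (w : Fin (r + 1) × Fin (r + 1) → B) :
    map (φ : B →+* B') (mw_inc_lin w) = mw_inc_lin fun p => φ (w p) := by
  simp only [mw_inc_lin, map_sum, map_mul, map_C, map_X, RingHom.coe_coe]

theorem mw_inc_map_wedge (φ : B →ₐ[mw_K] B') (u v : Fin (r + 1) → B) :
    (fun p => φ (mw_inc_wedge u v p)) = mw_inc_wedge (fun a => φ (u a)) fun a => φ (v a) := by
  funext p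
  simp only [mw_inc_wedge, map_sub, map_mul]

theorem mw_inc_map_th (φ : B →ₐ[mw_K] B') (v : Fin (r + 1) → B) (b : Fin (r + 1)) :
    map (φ : B →+* B') (mw_inc_th v b) = mw_inc_th (fun a => φ (v a)) b := by
  simp only [mw_inc_th, map_sum, map_mul, map_sub, map_C, map_X, RingHom.coe_coe]

theorem mw_inc_map_rt (φ : B →ₐ[mw_K] B') (cc : Fin (s + 1) → mw_K) (v : Fin (r + 1) → B)
    (R : MvPolynomial (Fin (s + 1) ⊕ Fin (r + 1)) mw_K) :
    map (φ : B →+* B') (mw_inc_rt cc v R) = mw_inc_rt cc (fun a => φ (v a)) R := by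
  rw [mw_inc_rt_eq, mw_inc_rt_eq]
  have h := comp_aeval (R := mw_K)
    (f := Sum.elim (fun j => C (algebraMap mw_K B (cc j))) (mw_inc_th v))
    (mapAlgHom (σ := Fin (r + 1) × Fin (r + 1)) φ)
  have h' := DFunLike.congr_fun h R
  rw [AlgHom.comp_apply, mapAlgHom_apply] at h'
  rw [h']
  congr 2
  funext i
  rcases i with j | b
  · simp [mapAlgHom_apply]
  · simp [mapAlgHom_apply, mw_inc_map_th]

theorem mw_inc_map_qv (φ : B →ₐ[mw_K] B') (cc : Fin (s + 1) → mw_K) (xv : Fin (r + 1) → B)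
    (yv : Fin (s + 1) → B) (Q : MvPolynomial (mw_Var4 r s) mw_K) :
    map (φ : B →+* B') (mw_inc_qv cc xv yv Q)
      = mw_inc_qv cc (fun a => φ (xv a)) (fun j => φ (yv j)) Q := by
  rw [mw_inc_qv, mw_inc_qv]
  have h := comp_aeval (R := mw_K)
    (f := Sum.elim (fun j => C (algebraMap mw_K B (cc j)))
      (Sum.elim (fun p => X p) (Sum.elim (fun b => C (xv b)) (fun j => C (yv j)))))
    (mapAlgHom (σ := Fin (r + 1) × Fin (r + 1)) φ)
  have h' := DFunLike.congr_fun h Q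
  rw [AlgHom.comp_apply, mapAlgHom_apply] at h'
  rw [h']
  congr 2
  funext i
  rcases i with j | p | b | j <;> simp [mapAlgHom_apply]

/-! ### scaling -/

theorem mw_inc_rt_smul (cc : Fin (s + 1) → mw_K) (t : B) (v : Fin (r + 1) → B)
    (R : MvPolynomial (Fin (s + 1) ⊕ Fin (r + 1)) mw_K) (a : ℕ)
    (hR : R.IsWeightedHomogeneous
      (Sum.elim (fun _ => 0) (fun _ => 1) : Fin (s + 1) ⊕ Fin (r + 1) → ℕ) a) :
    mw_inc_rt cc (fun b => t * v b) R = C (t ^ a) * mw_inc_rt cc v R := by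
  rw [mw_inc_rt_eq, mw_inc_rt_eq, map_pow, ← mw_inc_aeval_scale R _ a hR]
  congr 2
  funext i
  rcases i with j | b
  · simp
  · simp [mw_inc_th_smul]

/-- if `R` has degree `0` in `c`, then `R(cc, ·)` does not depend on `cc` -/
theorem mw_inc_rt_zero (cc : Fin (s + 1) → mw_K) (v : Fin (r + 1) → B)
    (R : MvPolynomial (Fin (s + 1) ⊕ Fin (r + 1)) mw_K)
    (hR : R.IsWeightedHomogeneous
      (Sum.elim (fun _ => 1) (fun _ => 0) : Fin (s + 1) ⊕ Fin (r + 1) → ℕ) 0) :
    mw_inc_rt cc v R = mw_inc_rt 0 v R := by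
  have h := mw_inc_aeval_scale R _ 0 hR
    (Sum.elim (fun j => C (algebraMap mw_K B (cc j))) (mw_inc_th v)) 0
  rw [pow_zero, one_mul] at h
  rw [mw_inc_rt_eq, mw_inc_rt_eq, ← h]
  congr 2
  funext i
  rcases i with j | b
  · simp
  · simp

theorem mw_inc_qv_smul_x (cc : Fin (s + 1) → mw_K) (t : B) (xv : Fin (r + 1) → B)
    (yv : Fin (s + 1) → B) (Q : MvPolynomial (mw_Var4 r s) mw_K) (d : Fin 4 → ℕ)
    (hQ : mw_IsMultiHom (mw_block4 r s) Q d) :
    mw_inc_qv cc (fun b => t * xv b) yv Q = C (t ^ d 2) * mw_inc_qv cc xv yv Q := by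
  rw [mw_inc_qv, mw_inc_qv, map_pow, ← mw_inc_aeval_scale Q _ (d 2) (hQ 2)]
  congr 2
  funext i
  rcases i with j | p | b | j <;> simp [mw_block4]

theorem mw_inc_qv_smul_y (cc : Fin (s + 1) → mw_K) (u : B) (xv : Fin (r + 1) → B)
    (yv : Fin (s + 1) → B) (Q : MvPolynomial (mw_Var4 r s) mw_K) (d : Fin 4 → ℕ)
    (hQ : mw_IsMultiHom (mw_block4 r s) Q d) :
    mw_inc_qv cc xv (fun i => u * yv i) Q = C (u ^ d 3) * mw_inc_qv cc xv yv Q := by
  rw [mw_inc_qv, mw_inc_qv, map_pow, ← mw_inc_aeval_scale Q _ (d 3) (hQ 3)]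
  congr 2
  funext i
  rcases i with j | p | b | j <;> simp [mw_block4]

theorem mw_inc_qv_smul (cc : Fin (s + 1) → mw_K) (t u : B) (xv : Fin (r + 1) → B)
    (yv : Fin (s + 1) → B) (Q : MvPolynomial (mw_Var4 r s) mw_K) (d : Fin 4 → ℕ)
    (hQ : mw_IsMultiHom (mw_block4 r s) Q d) :
    mw_inc_qv cc (fun b => t * xv b) (fun i => u * yv i) Q
      = C (t ^ d 2 * u ^ d 3) * mw_inc_qv cc xv yv Q := by
  rw [mw_inc_qv_smul_x cc t xv _ Q d hQ, mw_inc_qv_smul_y cc u xv yv Q d hQ, map_mul, mul_assoc]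

end Through

/-! ### the certificate identity at a constant vector `cc` -/

section Cert

variable {N : ℕ} [NeZero N] {r s : ℕ}

/-- substitute the constants `cc` for the variables `c` -/
def mw_inc_SC (cc : Fin (s + 1) → mw_K) :
    MvPolynomial (Fin (s + 1) ⊕ (Fin (r + 1) × Fin (r + 1))) (mw_F N) →ₐ[mw_F N]
      MvPolynomial (Fin (r + 1) × Fin (r + 1)) (mw_F N) :=
  aeval (Sum.elim (fun j => C (algebraMap mw_K (mw_F N) (cc j))) (fun p => X p))

theorem mw_inc_SC_through (cc : Fin (s + 1) → mw_K) (x : Fin (r + 1) → mw_F N)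
    (b : Fin (r + 1)) :
    mw_inc_SC (N := N) cc (mw_through (α := Fin (s + 1)) x b) = mw_inc_th x b := by
  simp only [mw_inc_SC, mw_through, mw_inc_th, map_sum, map_mul, map_sub, aeval_C, aeval_X,
    Sum.elim_inr, MvPolynomial.algebraMap_eq]

theorem mw_inc_SC_resThrough (cc : Fin (s + 1) → mw_K) (x : Fin (r + 1) → mw_F N)
    (R : MvPolynomial (Fin (s + 1) ⊕ Fin (r + 1)) mw_K) :
    mw_inc_SC cc (mw_resThrough N x R) = mw_inc_rt cc x R := by
  rw [mw_inc_rt_eq, mw_resThrough]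
  have h := comp_aeval (R := mw_K)
    (f := Sum.elim (fun j => (X (Sum.inl j) :
      MvPolynomial (Fin (s + 1) ⊕ (Fin (r + 1) × Fin (r + 1))) (mw_F N))) (mw_through x))
    ((mw_inc_SC (N := N) (r := r) cc).restrictScalars mw_K)
  have h' := DFunLike.congr_fun h R
  rw [AlgHom.comp_apply, AlgHom.restrictScalars_apply] at h'
  rw [h']
  congr 2
  funext i
  rcases i with j | b
  · simp [mw_inc_SC]
  · simp [mw_inc_SC_through]

theorem mw_inc_SC_quotAt (cc : Fin (s + 1) → mw_K) (x : Fin (r + 1) → mw_F N)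
    (y : Fin (s + 1) → mw_F N) (Q : MvPolynomial (mw_Var4 r s) mw_K) :
    mw_inc_SC cc (mw_quotAt N x y Q) = mw_inc_qv cc x y Q := by
  rw [mw_inc_qv, mw_quotAt]
  have h := comp_aeval (R := mw_K)
    (f := Sum.elim (fun j => (X (Sum.inl j) :
        MvPolynomial (Fin (s + 1) ⊕ (Fin (r + 1) × Fin (r + 1))) (mw_F N)))
      (Sum.elim (fun p => X (Sum.inr p)) (Sum.elim (fun b => C (x b)) (fun j => C (y j)))))
    ((mw_inc_SC (N := N) (r := r) cc).restrictScalars mw_K)
  have h' := DFunLike.congr_fun h Q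
  rw [AlgHom.comp_apply, AlgHom.restrictScalars_apply] at h'
  rw [h']
  congr 2
  funext i
  rcases i with j | p | b | j <;> simp [mw_inc_SC]

/-- the certificate identity at `c = cc`:
`y_j^k R(cc, λ_x(U)) = G_cc · R″_j(cc, U, x, y)` in `F[U]` -/
theorem mw_inc_cert_at {x : Fin (r + 1) → mw_F N} {y : Fin (s + 1) → mw_F N}
    {R : MvPolynomial (Fin (s + 1) ⊕ Fin (r + 1)) mw_K} {k a : ℕ}
    {R2 : Fin (s + 1) → MvPolynomial (mw_Var4 r s) mw_K} (hcert : mw_IsCert N x y R k a R2)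
    (cc : Fin (s + 1) → mw_K) (j : Fin (s + 1)) :
    C (y j) ^ k * mw_inc_rt cc x R = C (mw_sec y cc) * mw_inc_qv cc x y (R2 j) := by
  have h := congrArg (mw_inc_SC (N := N) (r := r) cc) (hcert j).2
  rw [map_mul, map_mul, map_pow, mw_inc_SC_resThrough, mw_inc_SC_quotAt] at h
  have h1 : mw_inc_SC (N := N) (r := r) cc (C (y j)) = C (y j) := by
    simp [mw_inc_SC]
  have h2 : mw_inc_SC (N := N) (r := r) cc (∑ i, X (Sum.inl i) * C (y i)) = C (mw_sec y cc) := by
    simp [mw_inc_SC, mw_sec]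
  rw [h1, h2] at h
  exact h

end Cert

end Fermat.Agent.MW
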