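/-
Project MW (S17), leaf [INC] (helper24), part 3: the factorisation (B1) pushed through the general
hyperplane through a `B`-point, the left-hand side of the identity over a `Q̄`-algebra `B`, and its
naturality.  Prefix `mw_inc_`.
-/
import Fermat.Agent.MW.Core.INC.Poly

set_option autoImplicit false
set_option linter.unusedSectionVars false

noncomputable section

namespace Fermat.Agent.MW

open MvPolynomial
open scoped Classical

variable {r s : ℕ} {B : Type} [CommRing B] [Algebra mw_K B]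
variable {ι' : Type}

theorem mw_inc_hasFinite {M : Type} [CommMonoid M] (Z : ι' → ℕ) (hfin : {z | Z z ≠ 0}.Finite)
    (g : ι' → M) : Function.HasFiniteMulSupport fun z => g z ^ Z z := by
  refine hfin.subset fun z hz => ?_
  simp only [Function.mem_mulSupport] at hz
  intro h0
  apply hz
  have h0' : Z z = 0 := by simpa using h0
  rw [h0', pow_zero]

theorem mw_inc_hasFinite_ite {M : Type} [CommMonoid M] (Z : ι' → ℕ)
    (hfin : {z | Z z ≠ 0}.Finite) (P : ι') (g : ι' → M) :
    Function.HasFiniteMulSupport fun z => if z = P then 1 else g z ^ Z z := by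
  refine (mw_inc_hasFinite Z hfin g).subset fun z hz => ?_
  simp only [Function.mem_mulSupport] at hz ⊢
  by_cases h : z = P
  · rw [if_pos h] at hz; exact absurd rfl hz
  · rwa [if_neg h] at hz

/-- (B1) pushed through the general hyperplane through `xv` -/
theorem mw_inc_rt_B1 (cc : Fin (s + 1) → mw_K) (xv : Fin (r + 1) → B)
    (R : MvPolynomial (Fin (s + 1) ⊕ Fin (r + 1)) mw_K) (pts : ι' → Fin (r + 1) → mw_K)
    (Z : ι' → ℕ) (hfin : {z | Z z ≠ 0}.Finite) (A₀ : mw_K)
    (hB1 : mw_subL cc R = C A₀ * ∏ᶠ z, mw_lin (pts z) ^ Z z) :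
    mw_inc_rt cc xv R = C (algebraMap mw_K B A₀) *
      ∏ᶠ z, mw_inc_lin (mw_inc_wedge xv fun b => algebraMap mw_K B (pts z b)) ^ Z z := by
  rw [mw_inc_rt, hB1, map_mul, map_finprod _ (mw_inc_hasFinite Z hfin _)]
  congr 1
  · rw [mw_inc_E, aeval_C, MvPolynomial.algebraMap_apply]
  · refine finprod_congr fun z => ?_
    rw [map_pow, mw_inc_E_lin]

/-- split off the factor at `P` -/
theorem mw_inc_finprod_split {M : Type} [CommMonoid M] (Z : ι' → ℕ)
    (hfin : {z | Z z ≠ 0}.Finite) (P : ι') (g : ι' → M) :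
    ∏ᶠ z, g z ^ Z z = g P ^ Z P * ∏ᶠ z, if z = P then 1 else g z ^ Z z := by
  rw [← mul_finprod_cond_ne P (mw_inc_hasFinite Z hfin g)]
  congr 1
  refine finprod_congr fun z => ?_
  rw [finprod_eq_if, ite_not]

/-- the left-hand side of [INC] over `B` -/
def mw_inc_L (pts : ι' → Fin (r + 1) → mw_K) (Z : ι' → ℕ) (P : ι') (k μ : ℕ) (A₀ : mw_K)
    (yj : B) (xv tv : Fin (r + 1) → B) : MvPolynomial (Fin (r + 1) × Fin (r + 1)) B :=
  C (yj ^ k * algebraMap mw_K B A₀)
    * (∏ᶠ z : ι', if z = P then 1 else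
        mw_inc_lin (mw_inc_wedge xv fun b => algebraMap mw_K B (pts z b)) ^ Z z)
    * mw_inc_lin (mw_inc_wedge tv fun b => algebraMap mw_K B (pts P b)) ^ μ

variable {B' : Type} [CommRing B'] [Algebra mw_K B']

theorem mw_inc_map_lin_wedge (φ : B →ₐ[mw_K] B') (xv : Fin (r + 1) → B)
    (c : Fin (r + 1) → mw_K) :
    map (φ : B →+* B') (mw_inc_lin (mw_inc_wedge xv fun b => algebraMap mw_K B (c b)))
      = mw_inc_lin (mw_inc_wedge (fun a => φ (xv a)) fun b => algebraMap mw_K B' (c b)) := by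
  rw [mw_inc_map_lin, mw_inc_map_wedge]
  simp only [AlgHom.commutes]

theorem mw_inc_map_L (φ : B →ₐ[mw_K] B') (pts : ι' → Fin (r + 1) → mw_K) (Z : ι' → ℕ)
    (hfin : {z | Z z ≠ 0}.Finite) (P : ι') (k μ : ℕ) (A₀ : mw_K) (yj : B)
    (xv tv : Fin (r + 1) → B) :
    map (φ : B →+* B') (mw_inc_L pts Z P k μ A₀ yj xv tv)
      = mw_inc_L pts Z P k μ A₀ (φ yj) (fun a => φ (xv a)) (fun a => φ (tv a)) := by
  rw [mw_inc_L, mw_inc_L, map_mul, map_mul, map_pow, mw_inc_map_lin_wedge, map_C,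
    map_finprod _ (mw_inc_hasFinite_ite Z hfin P _)]
  congr 2
  · simp only [RingHom.coe_coe, map_mul, map_pow, AlgHom.commutes]
  · refine finprod_congr fun z => ?_
    by_cases h : z = P
    · rw [if_pos h, if_pos h, map_one]
    · rw [if_neg h, if_neg h, map_pow, mw_inc_map_lin_wedge]

/-- the tangent computation: `(c + π t) ∧ c = π (t ∧ c)` -/
theorem mw_inc_wedge_tan (π : B) (xv tv c : Fin (r + 1) → B) (h : ∀ a, xv a = c a + π * tv a) :
    mw_inc_wedge xv c = fun p => π * mw_inc_wedge tv c p := by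
  funext p
  simp only [mw_inc_wedge, h]
  ring

end Fermat.Agent.MW
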