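/-
Project MW (S17), by-product of leaf [INC] (helper24) for [RESb]: the certificate identity evaluated
at a place `P`, for every `cc ≠ 0` (no division by `π^μ`):
`y_j(P)^k R(cc, λ_{x(P)}(U)) = ⟨cc, y(P)⟩ · R″_j(cc, U, x(P), y(P))` in `Q̄[U]`.  Prefix `mw_inc_`.
-/
import Fermat.Agent.MW.Core.INC

set_option autoImplicit false
set_option linter.unusedSectionVars false

noncomputable section

namespace Fermat.Agent.MW

open AlgebraicCurve ModularCurve MvPolynomial
open scoped Classical

variable {N : ℕ} [NeZero N] {r s : ℕ}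

/-- the certificate identity evaluated at the place `P`;
`mw_inc_rt cc v R = mw_inc_E v (mw_subL cc R) = R(cc, λ_v(U))`. -/
theorem mw_inc_cert_val {x : Fin (r + 1) → mw_F N} {y : Fin (s + 1) → mw_F N}
    {R : MvPolynomial (Fin (s + 1) ⊕ Fin (r + 1)) mw_K} {k a : ℕ}
    {R2 : Fin (s + 1) → MvPolynomial (mw_Var4 r s) mw_K}
    (hxli : LinearIndependent mw_K x) (hyli : LinearIndependent mw_K y)
    (hR : mw_IsBihom R k a) (hcert : mw_IsCert N x y R k a R2)
    (cc : Fin (s + 1) → mw_K) (hcc : cc ≠ 0) (P : mw_X N) (j : Fin (s + 1)) :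
    C (mw_vec y P j ^ k) * mw_inc_rt cc (mw_vec x P) R
      = C (mw_dot cc (mw_vec y P)) * mw_quotVal cc (mw_vec x P) (mw_vec y P) (R2 j) := by
  have hxe := mw_v_exists_ne_zero hxli
  have hye := mw_v_exists_ne_zero hyli
  obtain ⟨hxp, hxm⟩ := mw_v_piv_spec x hxe P
  obtain ⟨hyp, hym⟩ := mw_v_piv_spec y hye P
  have hsec := mw_v_sec_ne_zero hyli hcc
  have hI := mw_inc_cert_scaled hR hcert hxp hyp (fun b => x b / x (mw_piv x P))
    (fun i => y i / y (mw_piv y P)) (funext fun b => by field_simp)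
    (funext fun i => by field_simp) cc hsec j
  have hO : C (⟨_, hym j⟩ : ↥P.toValuationSubring) ^ k
        * mw_inc_rt cc (fun b => (⟨_, hxm b⟩ : ↥P.toValuationSubring)) R
      = C (⟨_, mw_v_sec_div_mem y hye P cc⟩ : ↥P.toValuationSubring)
        * mw_inc_qv cc (fun b => (⟨_, hxm b⟩ : ↥P.toValuationSubring))
          (fun i => (⟨_, hym i⟩ : ↥P.toValuationSubring)) (R2 j) := by
    apply MvPolynomial.map_injective (mw_inc_iota P : ↥P.toValuationSubring →+* mw_F N)
      (mw_inc_iota_injective P)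
    rw [map_mul, map_mul, map_pow, map_C, map_C, mw_inc_map_rt, mw_inc_map_qv]
    exact hI
  have hK := congrArg (map (mw_inc_eps P : ↥P.toValuationSubring →+* mw_K)) hO
  rw [map_mul, map_mul, map_pow, map_C, map_C, mw_inc_map_rt, mw_inc_map_qv] at hK
  rw [map_pow, mw_v_dot y hye P cc]
  exact hK

end Fermat.Agent.MW
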